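/-
Programme MS (S12), area CAN (helper7): **`cycloExp p σ ≡ ℓ (mod p)` for a Frobenius `σ` at a place over
`ℓ ≠ p`.**

* `cycloExp_frob` : `((cycloExp p σ : ℕ) : ZMod p) = (ℓ : ZMod p)`;
* `exists_decomp_cycloExp_ne_one` : if `p ∤ ℓ - 1` (`ℓ ≢ 1 mod p`), the decomposition group of any place
  `A ∣ ℓ` contains an element `σ` with `cycloExp p σ ≢ 1 (mod p)`.
-/
import Mathlib
import Fermat.Agent.S14.Fields
import Fermat.Agent.ES.J.CycloChar8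
import Fermat.Agent.ES.FROB.FrobFacts12

set_option autoImplicit false
set_option linter.unusedSectionVars false
set_option linter.style.longLine false

namespace Fermat.Agent.MS.CAN.CycloFrob7

open ExtCitation Fermat.Agent.S14.Fields

local notation "Qb" => AlgebraicClosure ℚ
local notation "GQ" => (AlgebraicClosure ℚ ≃ₐ[ℚ] AlgebraicClosure ℚ)

variable (p : ℕ) [Fact p.Prime]

/-- **a Frobenius at `ℓ ≠ p` has cyclotomic exponent `ℓ` modulo `p`.** -/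
theorem cycloExp_frob {ℓ : ℕ} (hℓ : ℓ.Prime) (hℓp : ℓ ≠ p) {A : ValuationSubring Qb}
    (hA : A.LiesOverPrime ℓ) {σ : GQ} (hσ : A.IsFrobeniusAt σ ℓ) :
    ((cycloExp p σ : ℕ) : ZMod p) = (ℓ : ZMod p) := by
  have hp : p.Prime := Fact.out
  have hζ := zeta_spec p
  have hζp : zeta p ^ p = 1 := hζ.pow_eq_one
  have hζA : zeta p ∈ A := Fermat.Agent.ES.J.CycloChar8.mem_of_pow_eq_one hp.ne_zero hζp
  have h1 := Fermat.Agent.ES.J.CycloChar8.frob_apply_sub_pow_mem_nonunits hσ hζA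
  rw [apply_zeta] at h1
  rw [← zeta_pow_eq_pow_iff]
  set e := cycloExp p σ with he
  have hζ0 : zeta p ≠ 0 := hζ.ne_zero hp.ne_zero
  -- `η = ζ^e / ζ^ℓ`
  set η : Qb := zeta p ^ e * (zeta p ^ ℓ)⁻¹ with hη
  have hηp : η ^ p = 1 := by
    rw [hη, mul_pow, inv_pow, ← pow_mul, ← pow_mul, mul_comm e p, mul_comm ℓ p, pow_mul, pow_mul,
      hζp, one_pow, one_pow, inv_one, mul_one]
  have hℓp' : ¬ ℓ ∣ p := fun hd => hℓp ((Nat.prime_dvd_prime_iff_eq hℓ hp).mp hd)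
  have hvζℓ : A.valuation (zeta p ^ ℓ) = 1 := by
    apply Fermat.Agent.ES.J.CycloChar8.valuation_eq_one_of_pow_eq_one hp.ne_zero
    rw [← pow_mul, mul_comm, pow_mul, hζp, one_pow]
  have hη1 : η - 1 ∈ A.nonunits := by
    have e1 : η - 1 = (zeta p ^ e - zeta p ^ ℓ) * (zeta p ^ ℓ)⁻¹ := by
      rw [hη, sub_mul, mul_inv_cancel₀ (pow_ne_zero ℓ hζ0)]
    rw [ValuationSubring.mem_nonunits_iff] at h1 ⊢
    rw [e1, map_mul, map_inv₀, hvζℓ, inv_one, mul_one]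
    exact h1
  have h2 := Fermat.Agent.ES.J.CycloChar8.eq_one_of_sub_one_mem_nonunits hℓ hA hℓp' hηp hη1
  rw [hη] at h2
  have h3 := congrArg (fun t => t * zeta p ^ ℓ) h2
  simp only [one_mul] at h3
  rwa [mul_assoc, inv_mul_cancel₀ (pow_ne_zero ℓ hζ0), mul_one] at h3

/-- if `ℓ ≢ 1 (mod p)`, some element of the decomposition group of `A ∣ ℓ` has cyclotomic exponent
`≢ 1 (mod p)`. -/
theorem exists_decomp_cycloExp_ne_one {ℓ : ℕ} (hℓ : ℓ.Prime) (hℓp : ℓ ≠ p) (hℓ1 : ¬ p ∣ ℓ - 1)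
    (A : ValuationSubring Qb) (hA : A.LiesOverPrime ℓ) :
    ∃ σ : GQ, A.IsFrobeniusAt σ ℓ ∧ σ ∈ A.decompositionSubgroup ℚ ∧
      ((cycloExp p σ : ℕ) : ZMod p) ≠ 1 := by
  obtain ⟨σ, hσ⟩ := Fermat.Agent.ES.FROB.FrobFacts12.exists_isFrobeniusAt_of ℓ hℓ A hA
  refine ⟨σ, hσ, hσ.mem_decompositionSubgroup, ?_⟩
  rw [cycloExp_frob p hℓ hℓp hA hσ]
  intro h
  apply hℓ1
  have h1 : ((ℓ - 1 : ℕ) : ZMod p) = 0 := by
    rw [Nat.cast_sub hℓ.one_le, h, Nat.cast_one, sub_self]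
  exact (ZMod.natCast_eq_zero_iff _ _).1 h1

end Fermat.Agent.MS.CAN.CycloFrob7
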