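/-
Programme MS (S12), area CAN (helper7): **propagation of canonicity by the two-lines argument (abstract).**

`D : CofData G X p k c` (helper8's `Cof(k)`), `V = p⁻¹K/K`, `C` the image of `X[p]`, `C'` a complement of `C`
stable under one element `σ` with `c σ ≢ 1 (mod p)`.  If `Z ⊆ X` is a cyclic subgroup of order `p^(k+1)`,
stable under `σ`, with `p • Z ⊆ K`, then **`D.next C' = Z`**.

(Application: `σ` a Frobenius at a place `A ∣ ℓ`, `ℓ ≢ 1 (mod p)`, `Z = Can_A(p^(k+1))`, `K = Can_A(p^k)`.)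

* `mem_of_two_stable_compl` : uniqueness of a `σ`-stable complement of a pointwise fixed line when the
  quotient scalar is `≠ 1`;
* `next_eq_of_stable_cyclic` : the statement above.
-/
import Mathlib
import Fermat.Agent.MS.STEP.StepAlg8
import Fermat.Agent.MS.LOC.TwoLines5

set_option autoImplicit false
set_option linter.unusedSectionVars false
set_option linter.style.longLine false

namespace Fermat.Agent.MS.CAN.TwoLinesStep7

open Fermat.Agent.MS.STEP.StepAlg8 Fermat.Agent.MS.LOC.TwoLines5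

section Abstract

variable {p : ℕ} [Fact p.Prime]
variable {V : Type*} [AddCommGroup V] [Module (ZMod p) V]
variable {G : Type*} [Group G] [DistribMulAction G V] [SMulCommClass G (ZMod p) V]

/-- **uniqueness of the stable complement**: `C` pointwise fixed by `σ`, `σ` acting on `V / C` through a scalar
`c ≠ 1`; if `L` is a `σ`-stable submodule meeting `C` trivially and `L'` a `σ`-stable complement of `C`, then
`L ≤ L'`. -/
theorem mem_of_two_stable_compl (C L L' : Submodule (ZMod p) V) (hCL : Disjoint C L)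
    (hCL' : IsCompl C L') (σ : G) (c : ZMod p) (hc : c ≠ 1) (hC : ∀ x ∈ C, σ • x = x)
    (hL : ∀ x ∈ L, σ • x ∈ L) (hL' : ∀ x ∈ L', σ • x ∈ L') (hq : ∀ x : V, σ • x - c • x ∈ C)
    {v : V} (hv : v ∈ L) : v ∈ L' := by
  have hx : v ∈ C ⊔ L' := by rw [hCL'.sup_eq_top]; exact Submodule.mem_top
  obtain ⟨y, hy, z, hz, rfl⟩ := Submodule.mem_sup.mp hx
  have h1 : σ • (y + z) = c • (y + z) := smul_eq_smul_of_mem C L hCL σ c hL hq hv
  have h2 : σ • z = c • z := smul_eq_smul_of_mem C L' hCL'.disjoint σ c hL' hq hz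
  rw [smul_add, hC y hy, h2, smul_add] at h1
  have h3 : y = c • y := add_right_cancel h1
  have h4 : (c - 1) • y = 0 := by
    rw [sub_smul, one_smul, ← h3, sub_self]
  have hc' : c - 1 ≠ 0 := sub_ne_zero.mpr hc
  have hy0 : y = 0 := by
    have := congrArg (fun w => (c - 1)⁻¹ • w) h4
    simp only [smul_zero] at this
    rwa [smul_smul, inv_mul_cancel₀ hc', one_smul] at this
  rw [hy0, zero_add]
  exact hz

end Abstract

section Step

variable {G X : Type} [Group G] [AddCommGroup X] [DistribMulAction G X] {p k : ℕ} {c : G → ℕ}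
  (D : CofData G X p k c)

/-- **canonicity propagates**: a `σ`-stable cyclic subgroup `Z` of order `p^(k+1)` with `p • Z ⊆ K` equals the
next subgroup `D.next C'` cut out by any `σ`-stable complement `C'` of `C`, provided `c σ ≢ 1 (mod p)`. -/
theorem next_eq_of_stable_cyclic (hp : p.Prime) (hk : 1 ≤ k)
    (hcardp : Nat.card ↥(tors X p) = p ^ 2) (hsurj : ∀ y ∈ D.K, ∃ x : X, p • x = y)
    (C' : Submodule (ZMod p) D.V) (hcompl : IsCompl D.C C')
    (σ : G) (hσC' : ∀ v ∈ C', σ • v ∈ C') (hc : ((c σ : ℕ) : ZMod p) ≠ 1)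
    (Z : AddSubgroup X) (z : X) (hZ : Z = AddSubgroup.zmultiples z) (hz : addOrderOf z = p ^ (k + 1))
    (hZσ : ∀ x ∈ Z, σ • x ∈ Z) (hZK : ∀ x ∈ Z, p • x ∈ D.K) :
    D.next C' = Z := by
  haveI : Fact p.Prime := ⟨hp⟩
  have hzZ : z ∈ Z := by rw [hZ]; exact AddSubgroup.mem_zmultiples z
  have hzA : z ∈ D.A := D.mem_A.2 (hZK z hzZ)
  -- the line `L` spanned by the image of `z`
  set v : D.V := D.proj ⟨z, hzA⟩ with hv
  set L : Submodule (ZMod p) D.V := Submodule.span (ZMod p) {v} with hL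
  -- `v ∉ C`
  have hvC : v ∉ D.C := by
    intro hvC
    obtain ⟨x, hx, hxv⟩ := D.mem_C.1 hvC
    have h1 : (x : X) - z ∈ D.K := (D.proj_eq_iff x ⟨z, hzA⟩).1 hxv
    have h2 : p ^ k • ((x : X) - z) = 0 := mem_tors.1 (D.K_le_tors h1)
    have h3 : p ^ k • (x : X) = 0 := by
      obtain ⟨j, rfl⟩ := Nat.exists_eq_add_of_le hk
      rw [pow_add, pow_one, mul_comm p (p ^ j), mul_nsmul', hx, smul_zero]
    have h4 : p ^ k • z = 0 := by
      rw [nsmul_sub, h3, zero_sub, neg_eq_zero] at h2
      exact h2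
    have h5 : p ^ (k + 1) ∣ p ^ k := by
      rw [← hz]
      exact addOrderOf_dvd_iff_nsmul_eq_zero.2 h4
    have h6 : p ^ (k + 1) ≤ p ^ k := Nat.le_of_dvd (pow_pos hp.pos k) h5
    have h7 : p ^ k < p ^ (k + 1) := Nat.pow_lt_pow_right hp.one_lt (Nat.lt_succ_self k)
    omega
  -- `L` meets `C` trivially
  have hdisj : Disjoint D.C L := by
    rw [Submodule.disjoint_def]
    intro w hwC hwL
    obtain ⟨a, rfl⟩ := Submodule.mem_span_singleton.1 hwL
    by_contra hne
    have ha : a ≠ 0 := by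
      rintro rfl
      exact hne (zero_smul _ _)
    apply hvC
    have := D.C.smul_mem a⁻¹ hwC
    rwa [smul_smul, inv_mul_cancel₀ ha, one_smul] at this
  -- `L` is `σ`-stable
  have hσz : σ • z ∈ AddSubgroup.zmultiples z := by
    rw [← hZ]
    exact hZσ z hzZ
  obtain ⟨m, hm⟩ := AddSubgroup.mem_zmultiples_iff.1 hσz
  have hσv : σ • v = m • v := by
    rw [hv, CofData.smul_proj, ← map_zsmul]
    congr 1
    apply Subtype.ext
    rw [CofData.coe_actA]
    show σ • z = ((m • (⟨z, hzA⟩ : ↥D.A) : ↥D.A) : X)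
    rw [AddSubgroup.coe_zsmul]
    exact hm.symm
  have hLσ : ∀ w ∈ L, σ • w ∈ L := by
    intro w hw
    obtain ⟨a, rfl⟩ := Submodule.mem_span_singleton.1 hw
    rw [smul_comm, hσv]
    refine L.smul_mem a ?_
    rw [← Int.cast_smul_eq_zsmul (ZMod p)]
    exact L.smul_mem _ (Submodule.mem_span_singleton_self v)
  -- the two-lines argument
  have hvC' : v ∈ C' :=
    mem_of_two_stable_compl D.C L C' hdisj hcompl σ ((c σ : ℕ) : ZMod p) hc
      (fun x hx => D.C_fixed hk σ x hx) hLσ hσC' (fun x => D.cyclo_quot hp hk σ x)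
      (Submodule.mem_span_singleton_self v)
  -- conclusion by cardinality
  have hle : Z ≤ D.next C' := by
    rw [hZ, AddSubgroup.zmultiples_le, CofData.mem_next]
    exact ⟨hzA, hvC'⟩
  have hcardN := D.card_next hcardp hsurj C' hp hk hcompl
  haveI : Finite ↥(D.next C') :=
    Nat.finite_of_card_ne_zero (by rw [hcardN]; exact pow_ne_zero _ hp.ne_zero)
  symm
  refine AddSubgroup.eq_of_le_of_card_ge hle ?_
  rw [hcardN, hZ, Nat.card_zmultiples, hz]

end Step

end Fermat.Agent.MS.CAN.TwoLinesStep7
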