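/-
Programme MS (S12), area CAN (helper7): **canonicity propagates from level `k` to level `k + 1` at a
multiplicative place over `r ≢ 1 (mod p)`** (two-lines argument with a Frobenius).

`W / ℤ` with `r ∣ Δ`, `r ∤ c₄`, `A ∣ r`, `r ≠ p`, `p ∤ r - 1`, `p ≥ 5`; `D : CofData G_ℚ E(ℚ̄) p k (cycloExp p)`
with `K ⊆ E⁰_A` (i.e. `K = Can_A(p^k)`); `C'` a complement of `C` in `V = p⁻¹K/K` stable under the decomposition
group of `A`.  Then `D.next C' ⊆ E⁰_A` (i.e. `D.next C' = Can_A(p^(k+1))`).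

* `coprime_pow_six`;
* `K_eq_can` : `K ⊆ E⁰_A` ⟹ `K = Can_A(p^k)`;
* `nsmul_mem_K_of_mem_can` : `p • Can_A(p^(k+1)) ⊆ K`;
* **`inZero_next_of_not_one`**, `next_eq_can_of_not_one`.
-/
import Mathlib
import Fermat.Agent.MS.CAN.TwoLinesStep7
import Fermat.Agent.MS.CAN.CycloFrob7
import Fermat.Agent.MS.LOC.CanP5

set_option autoImplicit false
set_option linter.unusedSectionVars false
set_option linter.style.longLine false
set_option linter.style.haveILetI false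

namespace Fermat.Agent.MS.CAN.CanNext7

open WeierstrassCurve WeierstrassCurve.Affine ExtCitation
open Fermat.Agent.MS.STEP.StepAlg8 Fermat.Agent.MS.LOC.CanStruct5 Fermat.Agent.MS.LOC.CanP5
open Fermat.Agent.MS.CAN.TwoLinesStep7 Fermat.Agent.MS.CAN.CycloFrob7

local notation "Qb" => AlgebraicClosure ℚ
local notation "GQ" => (AlgebraicClosure ℚ ≃ₐ[ℚ] AlgebraicClosure ℚ)

theorem coprime_pow_six {p : ℕ} (hp : p.Prime) (hp5 : 5 ≤ p) (j : ℕ) : Nat.Coprime (p ^ j) 6 := by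
  apply Nat.Coprime.pow_left
  have h2 : Nat.Coprime p 2 := by
    rw [Nat.coprime_primes hp Nat.prime_two]; omega
  have h3 : Nat.Coprime p 3 := by
    rw [Nat.coprime_primes hp Nat.prime_three]; omega
  exact Nat.Coprime.mul_right h2 h3

variable {W : WeierstrassCurve ℤ} {A : ValuationSubring Qb} {p k : ℕ} {c : GQ → ℕ}

/-- `K ⊆ E⁰_A` forces `K = Can_A(p^k)`. -/
theorem K_eq_can [NeZero (p ^ k)] (T : TorsParam W A (p ^ k))
    (D : CofData GQ ((W.map (Int.castRingHom ℚ))⁄Qb).Point p k c)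
    (hcan : ∀ x ∈ D.K, W.InZeroComponentAt A x) : D.K = T.can := by
  have hle : D.K ≤ T.can := fun x hx =>
    (T.mem_can_iff x).2 ⟨mem_tors.1 (D.K_le_tors hx), hcan x hx⟩
  haveI : Finite ↥T.can :=
    Nat.finite_of_card_ne_zero (by rw [T.card_can]; exact NeZero.ne _)
  exact AddSubgroup.eq_of_le_of_card_ge hle (by rw [T.card_can, D.card_K])

/-- `p • Can_A(p^(k+1)) ⊆ K` when `K ⊆ E⁰_A`. -/
theorem nsmul_mem_K_of_mem_can [NeZero (p ^ k)] [NeZero (p ^ (k + 1))] (Tk : TorsParam W A (p ^ k))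
    (T : TorsParam W A (p ^ (k + 1)))
    (D : CofData GQ ((W.map (Int.castRingHom ℚ))⁄Qb).Point p k c)
    (hcan : ∀ x ∈ D.K, W.InZeroComponentAt A x)
    {x : ((W.map (Int.castRingHom ℚ))⁄Qb).Point} (hx : x ∈ T.can) : p • x ∈ D.K := by
  rw [K_eq_can Tk D hcan, Tk.mem_can_iff]
  obtain ⟨h1, h2⟩ := (T.mem_can_iff x).1 hx
  refine ⟨?_, T.inZero_nsmul h1 h2 p⟩
  rw [← mul_nsmul', ← pow_succ]
  exact h1

variable [Fact p.Prime]

/-- **canonicity at level `k + 1`** at a multiplicative place over `r ≢ 1 (mod p)`. -/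
theorem next_eq_can_of_not_one {r : ℕ} (hr : r.Prime) (hΔ0 : W.Δ ≠ 0) (hΔ : (r : ℤ) ∣ W.Δ)
    (hc4 : ¬ (r : ℤ) ∣ W.c₄) (hA : A.LiesOverPrime r) (hp5 : 5 ≤ p) (hrp : r ≠ p)
    (hr1 : ¬ p ∣ r - 1) (hk : 1 ≤ k)
    (D : CofData GQ ((W.map (Int.castRingHom ℚ))⁄Qb).Point p k (cycloExp p))
    (hcardp : Nat.card ↥(tors ((W.map (Int.castRingHom ℚ))⁄Qb).Point p) = p ^ 2)
    (hsurj : ∀ y ∈ D.K, ∃ x : ((W.map (Int.castRingHom ℚ))⁄Qb).Point, p • x = y)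
    (hcan : ∀ x ∈ D.K, W.InZeroComponentAt A x)
    (C' : Submodule (ZMod p) D.V) (hcompl : IsCompl D.C C')
    (hC' : ∀ σ ∈ A.decompositionSubgroup ℚ, ∀ v ∈ C', σ • v ∈ C')
    [NeZero (p ^ (k + 1))] (T : TorsParam W A (p ^ (k + 1))) :
    D.next C' = T.can := by
  have hp : p.Prime := Fact.out
  haveI : NeZero p := ⟨hp.ne_zero⟩
  haveI : NeZero (p ^ k) := ⟨pow_ne_zero k hp.ne_zero⟩
  obtain ⟨Tk⟩ := nonempty_torsParam_of_mult_gen hr W hΔ0 hΔ hc4 A hA (p ^ k)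
    (coprime_pow_six hp hp5 k)
  obtain ⟨σ, -, hσD, hσc⟩ := exists_decomp_cycloExp_ne_one p hr hrp hr1 A hA
  exact next_eq_of_stable_cyclic D hp hk hcardp hsurj C' hcompl σ (hC' σ hσD) hσc T.can T.gen
    T.can_eq_zmultiples T.addOrderOf_gen (fun x hx => T.smul_mem_can hσD hx)
    (fun x hx => nsmul_mem_K_of_mem_can Tk T D hcan hx)

/-- **canonicity propagates** (`InZeroComponentAt` form). -/
theorem inZero_next_of_not_one {r : ℕ} (hr : r.Prime) (hΔ0 : W.Δ ≠ 0) (hΔ : (r : ℤ) ∣ W.Δ)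
    (hc4 : ¬ (r : ℤ) ∣ W.c₄) (hA : A.LiesOverPrime r) (hp5 : 5 ≤ p) (hrp : r ≠ p)
    (hr1 : ¬ p ∣ r - 1) (hk : 1 ≤ k)
    (D : CofData GQ ((W.map (Int.castRingHom ℚ))⁄Qb).Point p k (cycloExp p))
    (hcardp : Nat.card ↥(tors ((W.map (Int.castRingHom ℚ))⁄Qb).Point p) = p ^ 2)
    (hsurj : ∀ y ∈ D.K, ∃ x : ((W.map (Int.castRingHom ℚ))⁄Qb).Point, p • x = y)
    (hcan : ∀ x ∈ D.K, W.InZeroComponentAt A x)
    (C' : Submodule (ZMod p) D.V) (hcompl : IsCompl D.C C')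
    (hC' : ∀ σ ∈ A.decompositionSubgroup ℚ, ∀ v ∈ C', σ • v ∈ C') :
    ∀ x ∈ D.next C', W.InZeroComponentAt A x := by
  have hp : p.Prime := Fact.out
  haveI : NeZero (p ^ (k + 1)) := ⟨pow_ne_zero _ hp.ne_zero⟩
  obtain ⟨T⟩ := nonempty_torsParam_of_mult_gen hr W hΔ0 hΔ hc4 A hA (p ^ (k + 1))
    (coprime_pow_six hp hp5 (k + 1))
  intro x hx
  rw [next_eq_can_of_not_one hr hΔ0 hΔ hc4 hA hp5 hrp hr1 hk D hcardp hsurj hcan C' hcompl hC' T]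
    at hx
  exact ((T.mem_can_iff x).1 hx).2

end Fermat.Agent.MS.CAN.CanNext7
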