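/-
Programme MS (S12), area CAN (helper7): **local (E0) for Frobenius-fixed points.**

`W / ℤ`, `A` a place of `ℚ̄` over a prime `ℓ ≠ p`, `σ` a Frobenius element at `A`, `Q ≠ 0` with `p • Q = 0`,
`σ • Q = Q`, `Q ∈ E⁰_A` (`W.InZeroComponentAt A Q`).  Then the reduction of `Q` is a nonsingular `𝔽_ℓ`-point
of order `p` of the reduced cubic, so

* `prime_le_of_frobFixed_crude` : `p ≤ 2ℓ + 1` (no hypothesis on the reduction type, `ℓ = 2` allowed);
* `prime_le_of_frobFixed` : `p ≤ 2ℓ - 1` if `ℓ ≠ 2`, `ℓ ∣ Δ`, `ℓ ∤ c₄` (multiplicative reduction).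

This is `MZ/TOP/ZeroComp9.prime_le_of_inZeroComponentAt` with "`Q` rational" weakened to "`Q` fixed by one
Frobenius at `A`".
-/
import Mathlib
import Fermat.Agent.MZ.TOP.ZeroComp9
import Fermat.Agent.MS.END.FrobCount8
import Fermat.Agent.ES.J.CycloChar8

set_option autoImplicit false
set_option linter.unusedSectionVars false
set_option linter.style.longLine false
set_option linter.style.haveILetI false

open WeierstrassCurve WeierstrassCurve.Affine Polynomial

namespace Fermat.Agent.MS.CAN.FrobE07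

open Fermat.Agent.MZ.TOP.ZeroComp9 Fermat.Agent.MS.END.FrobCount8

/-! ### Frobenius-fixed residues lie in the prime field -/

section PrimeField

variable {k : Type*} [Field k] {ℓ : ℕ} [Fact ℓ.Prime] [CharP k ℓ]

/-- an element `r` of a field of characteristic `ℓ` with `r ^ ℓ = r` lies in the prime field. -/
theorem exists_zmod_of_pow_eq (r : k) (h : r ^ ℓ = r) :
    ∃ t : ZMod ℓ, ZMod.castHom (dvd_refl ℓ) k t = r := by
  classical
  have hℓ : ℓ.Prime := Fact.out
  set ι : ZMod ℓ →+* k := ZMod.castHom (dvd_refl ℓ) k with hι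
  by_contra hne
  push_neg at hne
  set S : Finset k := (Finset.univ : Finset (ZMod ℓ)).image ι with hS
  have hScard : S.card = ℓ := by
    rw [hS, Finset.card_image_of_injective _ ι.injective, Finset.card_univ, ZMod.card]
  have hrS : r ∉ S := by
    intro hr
    obtain ⟨t, -, ht⟩ := Finset.mem_image.1 hr
    exact hne t ht
  have hsub : insert r S ⊆ frobRoots k ℓ := by
    intro s hs
    rw [mem_frobRoots hℓ.two_le]
    rcases Finset.mem_insert.1 hs with rfl | hs
    · exact h
    · obtain ⟨t, -, rfl⟩ := Finset.mem_image.1 hs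
      rw [← map_pow, ZMod.pow_card]
  have h1 := Finset.card_le_card hsub
  rw [Finset.card_insert_of_notMem hrS, hScard] at h1
  have h2 := card_frobRoots_le (k := k) hℓ.two_le
  omega

end PrimeField

/-! ### the crude point count -/

section Count

variable {F : Type*} [Field F] [Fintype F] [DecidableEq F]

/-- the group of nonsingular points of a Weierstrass cubic over a finite field has at most `2 #F + 1`
elements. -/
theorem card_point_le_crude (W : Affine F) : Nat.card W.Point ≤ 2 * Fintype.card F + 1 := by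
  classical
  set S : Finset (F × F) := Finset.univ.filter fun q => W.Equation q.1 q.2 with hS
  have hScard : S.card ≤ 2 * Fintype.card F := by
    have h1 := Finset.card_le_mul_card_image (f := fun q : F × F => q.1) S 2 (fun a _ => by
      have := card_fibre_le W a S (fun q hq => (Finset.mem_filter.mp hq).2)
      simpa using this)
    have h3 : (S.image fun q : F × F => q.1).card ≤ Fintype.card F := by
      rw [← Finset.card_univ]
      exact Finset.card_le_card (Finset.subset_univ _)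
    exact h1.trans (Nat.mul_le_mul_left 2 h3)
  have himg : ∀ P : W.Point, toOpt W P ∈ insert none (S.image some) := by
    intro P
    cases P with
    | zero => exact Finset.mem_insert_self _ _
    | some x y hxy =>
      refine Finset.mem_insert_of_mem (Finset.mem_image.mpr ⟨(x, y), ?_, rfl⟩)
      exact Finset.mem_filter.mpr ⟨Finset.mem_univ _, hxy.1⟩
  have hcard : Nat.card W.Point ≤ (insert none (S.image some)).card := by
    rw [← Nat.card_eq_finsetCard]
    exact Nat.card_le_card_of_injective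
      (fun P => (⟨toOpt W P, himg P⟩ : ↥(insert none (S.image some))))
      (fun P Q h => toOpt_injective W (congrArg Subtype.val h))
  have h4 : (insert none (S.image some)).card ≤ S.card + 1 :=
    (Finset.card_insert_le _ _).trans (Nat.add_le_add_right Finset.card_image_le 1)
  omega

/-- a point of prime order `p` on a Weierstrass cubic over a finite field: `p ≤ 2 #F + 1`. -/
theorem prime_le_crude (W : Affine F) {p : ℕ} (hp : p.Prime) (P : W.Point) (hP0 : P ≠ 0)
    (hpP : p • P = 0) : p ≤ 2 * Fintype.card F + 1 := by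
  haveI := finite_point W
  have hord : addOrderOf P = p := by
    haveI : Fact p.Prime := ⟨hp⟩
    exact addOrderOf_eq_prime hpP hP0
  have h1 : p ∣ Nat.card W.Point := hord ▸ addOrderOf_dvd_natCard P
  have h2' : 0 < Nat.card W.Point := Nat.card_pos
  exact (Nat.le_of_dvd h2' h1).trans (card_point_le_crude W)

end Count

/-! ### reduction of a Frobenius-fixed torsion point -/

section Main

open Fermat.Agent.S05.Inertia

local notation "Kb" => AlgebraicClosure ℚ

variable {ℓ : ℕ} (hℓ : ℓ.Prime) {A : ValuationSubring Kb} (hA : A.LiesOverPrime ℓ)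

include hA in
/-- **the reduction of a Frobenius-fixed `p`-torsion point of `E⁰_A`**: a nonsingular point of order `p` of
the reduced cubic over `𝔽_ℓ`. -/
theorem exists_reduced_point [Fact ℓ.Prime] {p : ℕ} (hp : p.Prime) (hℓp : ℓ ≠ p)
    (W : WeierstrassCurve ℤ) {σ : Kb ≃ₐ[ℚ] Kb} (hσ : A.IsFrobeniusAt σ ℓ)
    (Q : ((W.map (Int.castRingHom ℚ))⁄Kb).Point)
    (hQfix : σ • Q = Q) (hQ0 : Q ≠ 0) (hpQ : p • Q = 0)
    (hz : W.InZeroComponentAt A Q) :
    ∃ R : (W.map (Int.castRingHom (ZMod ℓ))).toAffine.Point, R ≠ 0 ∧ p • R = 0 := by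
  classical
  have hℓ : ℓ.Prime := Fact.out
  haveI : NeZero ℓ := ⟨hℓ.ne_zero⟩
  rcases hz with h0 | ⟨x, y, h, hQ, hxy⟩
  · exact absurd h0 hQ0
  subst hQ
  -- fixed coordinates
  have hfix : σ x = x ∧ σ y = y := by
    obtain ⟨h', he⟩ := Fermat.Agent.S51.Galois.smul_some (W.map (Int.castRingHom ℚ)) σ h
    exact Point.some.inj (he.symm.trans hQfix)
  -- the division polynomial
  set f0 : ℤ[X] := W.ΨSq (p : ℤ) with hf0
  have hΨ : f0.eval₂ (Int.castRingHom Kb) x = 0 := by
    have h1 := (Fermat.Agent.DivPoly.A1Final.nsmul_eq_zero_iff h p hp.one_le).mp hpQ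
    have hcurve : ((W.map (Int.castRingHom ℚ))⁄Kb).ΨSq (p : ℤ) = f0.map (Int.castRingHom Kb) := by
      rw [baseChange_eq, WeierstrassCurve.map_ΨSq]
    rw [← eval_map, ← hcurve]
    exact h1
  have hℓp' : ¬ ℓ ∣ p := fun hd => hℓp ((Nat.prime_dvd_prime_iff_eq hℓ hp).mp hd)
  -- `x ∈ A`
  have hxA : x ∈ A := by
    have hp0 : (((p : ℤ) : ℤ) : ℤ) ≠ 0 := by simpa using hp.ne_zero
    have haeval : aeval x f0 = 0 := by
      rw [aeval_def]
      exact hΨ
    have hint := isIntegral_leadingCoeff_smul f0 x haeval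
    rw [hf0, WeierstrassCurve.leadingCoeff_ΨSq W (n := (p : ℤ)) hp0] at hint
    have hint' : IsIntegral A (((p : ℤ) ^ 2 : ℤ) • x) := hint.tower_top
    obtain ⟨z, hz⟩ := IsIntegrallyClosed.isIntegral_iff.mp hint'
    have hv : A.valuation (((p : ℤ) ^ 2 : ℤ) • x) ≤ 1 := by
      rw [← hz]
      exact (A.valuation_le_one_iff _).mpr z.2
    rw [zsmul_eq_mul, map_mul] at hv
    have hvp : A.valuation (((p : ℤ) ^ 2 : ℤ) : Kb) = 1 := by
      push_cast
      rw [map_pow, valuation_natCast_eq_one hℓ hA hℓp', one_pow]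
    rw [hvp, one_mul] at hv
    exact (A.valuation_le_one_iff x).mp hv
  rcases hxy with hxn | ⟨hx, hy, hns⟩
  · exact absurd hxA hxn
  -- the residue field
  haveI : CharP (IsLocalRing.ResidueField A) ℓ :=
    Fermat.Agent.ES.KRON.KronInst10.charP_residueField A hℓ hA
  set ι : ZMod ℓ →+* IsLocalRing.ResidueField A :=
    ZMod.castHom (dvd_refl ℓ) (IsLocalRing.ResidueField A) with hι
  -- residues of Frobenius-fixed elements of `A` are in the prime field
  have hres : ∀ (u : Kb) (hu : u ∈ A), σ u = u →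
      ∃ t : ZMod ℓ, ι t = IsLocalRing.residue A ⟨u, hu⟩ := by
    intro u hu hσu
    apply exists_zmod_of_pow_eq
    have h1 := Fermat.Agent.ES.J.CycloChar8.frob_apply_sub_pow_mem_nonunits hσ hu
    rw [hσu] at h1
    have h2 : (⟨u, hu⟩ : A) - ⟨u, hu⟩ ^ ℓ ∈ IsLocalRing.maximalIdeal A := by
      rw [← ValuationSubring.coe_mem_nonunits_iff]
      exact h1
    have h3 := (IsLocalRing.residue_eq_zero_iff _).2 h2
    rw [map_sub, map_pow, sub_eq_zero] at h3
    exact h3.symm
  obtain ⟨xt, hxt⟩ := hres x hx hfix.1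
  obtain ⟨yt, hyt⟩ := hres y hy hfix.2
  -- the reduced curve over `𝔽_ℓ`
  set WF : WeierstrassCurve (ZMod ℓ) := W.map (Int.castRingHom (ZMod ℓ)) with hWF
  have hmap : WF.map ι = W.map (Int.castRingHom (IsLocalRing.ResidueField A)) := by
    rw [hWF, WeierstrassCurve.map_map]
    congr 1
    exact RingHom.ext_int _ _
  have hnsF : WF.toAffine.Nonsingular xt yt := by
    have h1 := WeierstrassCurve.Affine.map_nonsingular (W := WF) (f := ι) ι.injective xt yt
    refine h1.mp ?_
    rw [hxt, hyt]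
    show (WF.map ι).toAffine.Nonsingular _ _
    rw [hmap]
    exact hns
  -- the division polynomial vanishes at `xt`
  have hΨA : f0.eval₂ (Int.castRingHom A) ⟨x, hx⟩ = 0 := by
    apply Subtype.val_injective
    have h1 := Polynomial.hom_eval₂ f0 (Int.castRingHom A) A.subtype ⟨x, hx⟩
    rw [RingHom.ext_int (A.subtype.comp (Int.castRingHom A)) (Int.castRingHom Kb)] at h1
    exact h1.trans hΨ
  have hΨk : f0.eval₂ (Int.castRingHom (IsLocalRing.ResidueField A))
      (IsLocalRing.residue A ⟨x, hx⟩) = 0 := by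
    have h1 := Polynomial.hom_eval₂ f0 (Int.castRingHom A) (IsLocalRing.residue A) ⟨x, hx⟩
    rw [RingHom.ext_int ((IsLocalRing.residue A).comp (Int.castRingHom A))
      (Int.castRingHom (IsLocalRing.ResidueField A)), hΨA, map_zero] at h1
    exact h1.symm
  have hΨF : (WF.ΨSq (p : ℤ)).eval xt = 0 := by
    apply ι.injective
    rw [map_zero, hWF, WeierstrassCurve.map_ΨSq, eval_map, Polynomial.hom_eval₂,
      RingHom.ext_int (ι.comp (Int.castRingHom (ZMod ℓ)))
        (Int.castRingHom (IsLocalRing.ResidueField A)), hxt]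
    exact hΨk
  have hpP : p • (Point.some xt yt hnsF : WF.toAffine.Point) = 0 :=
    (Fermat.Agent.DivPoly.A1Final.nsmul_eq_zero_iff hnsF p hp.one_le).mpr hΨF
  exact ⟨Point.some xt yt hnsF, by simp, hpP⟩

include hℓ hA in
/-- **local (E0), crude form**: `p ≤ 2ℓ + 1`. -/
theorem prime_le_of_frobFixed_crude {p : ℕ} (hp : p.Prime) (hℓp : ℓ ≠ p)
    (W : WeierstrassCurve ℤ) {σ : Kb ≃ₐ[ℚ] Kb} (hσ : A.IsFrobeniusAt σ ℓ)
    (Q : ((W.map (Int.castRingHom ℚ))⁄Kb).Point)
    (hQfix : σ • Q = Q) (hQ0 : Q ≠ 0) (hpQ : p • Q = 0)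
    (hz : W.InZeroComponentAt A Q) : p ≤ 2 * ℓ + 1 := by
  classical
  haveI : Fact ℓ.Prime := ⟨hℓ⟩
  obtain ⟨R, hR0, hpR⟩ := exists_reduced_point hA hp hℓp W hσ Q hQfix hQ0 hpQ hz
  have := prime_le_crude (W.map (Int.castRingHom (ZMod ℓ))).toAffine hp R hR0 hpR
  rwa [ZMod.card] at this

include hℓ hA in
/-- **local (E0)**: at an odd prime of multiplicative reduction, `p ≤ 2ℓ - 1`. -/
theorem prime_le_of_frobFixed {p : ℕ} (hp : p.Prime) (hℓp : ℓ ≠ p) (hℓ2 : ℓ ≠ 2)
    (W : WeierstrassCurve ℤ) (hℓΔ : (ℓ : ℤ) ∣ W.Δ) (hℓc₄ : ¬ (ℓ : ℤ) ∣ W.c₄)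
    {σ : Kb ≃ₐ[ℚ] Kb} (hσ : A.IsFrobeniusAt σ ℓ)
    (Q : ((W.map (Int.castRingHom ℚ))⁄Kb).Point)
    (hQfix : σ • Q = Q) (hQ0 : Q ≠ 0) (hpQ : p • Q = 0)
    (hz : W.InZeroComponentAt A Q) : p ≤ 2 * ℓ - 1 := by
  classical
  haveI : Fact ℓ.Prime := ⟨hℓ⟩
  set WF : WeierstrassCurve (ZMod ℓ) := W.map (Int.castRingHom (ZMod ℓ)) with hWF
  obtain ⟨R, hR0, hpR⟩ : ∃ R : WF.toAffine.Point, R ≠ 0 ∧ p • R = 0 :=
    exists_reduced_point hA hp hℓp W hσ Q hQfix hQ0 hpQ hz
  have h2F : (2 : ZMod ℓ) ≠ 0 := by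
    intro h
    have h1 : ((2 : ℕ) : ZMod ℓ) = 0 := by exact_mod_cast h
    rw [ZMod.natCast_eq_zero_iff] at h1
    exact hℓ2 ((Nat.prime_dvd_prime_iff_eq hℓ Nat.prime_two).mp h1)
  have hΔF : WF.Δ = 0 := by
    rw [hWF, WeierstrassCurve.map_Δ]
    exact (ZMod.intCast_zmod_eq_zero_iff_dvd W.Δ ℓ).mpr hℓΔ
  have hcF : WF.c₄ ≠ 0 := by
    rw [hWF, WeierstrassCurve.map_c₄]
    exact fun h => hℓc₄ ((ZMod.intCast_zmod_eq_zero_iff_dvd W.c₄ ℓ).mp h)
  have := prime_le_of_nsmul_eq_zero WF.toAffine h2F hΔF hcF hp R hR0 hpR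
  rwa [ZMod.card] at this

end Main

end Fermat.Agent.MS.CAN.FrobE07
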