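/-
Programme MS (S12), area CAN (helper7): **base case of canonicity**: a cofixed line is canonical at every
multiplicative place over a prime `r` with `p > 2r - 1` (in particular `r = 2, 3` for `p ≥ 17`).

`W / ℤ` with `r ∣ Δ`, `r ∤ c₄`, `A ∣ r`, `r ≠ p`, `p ≥ 5`; `K ⊆ E[p]` a subgroup of order `p` with
`(σ - 1) E[p] ⊆ K` for all `σ ∈ G_ℚ` (only a Frobenius at `A` is used).  If `K ⊄ E⁰_A` then `K ∩ Can_A(p) = 0`,
so the Frobenius fixes `Can_A(p)` pointwise and `FrobE07` gives `p ≤ 2r + 1`, and `p ≤ 2r - 1` for `r ≠ 2`.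

* **`inZero_of_cofixed`** (subgroup form), `inZero_of_cofData` (for `D : CofData G_ℚ E(ℚ̄) p 1 c`).
-/
import Mathlib
import Fermat.Agent.MS.CAN.FrobE07
import Fermat.Agent.MS.CAN.CanNext7
import Fermat.Agent.ES.FROB.FrobFacts12

set_option autoImplicit false
set_option linter.unusedSectionVars false
set_option linter.style.longLine false
set_option linter.style.haveILetI false

namespace Fermat.Agent.MS.CAN.Base7

open WeierstrassCurve WeierstrassCurve.Affine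
open Fermat.Agent.MS.STEP.StepAlg8 Fermat.Agent.MS.LOC.CanStruct5 Fermat.Agent.MS.LOC.CanP5
open Fermat.Agent.MS.CAN.CanNext7 Fermat.Agent.MS.CAN.FrobE07

local notation "Qb" => AlgebraicClosure ℚ
local notation "GQ" => (AlgebraicClosure ℚ ≃ₐ[ℚ] AlgebraicClosure ℚ)

variable {W : WeierstrassCurve ℤ} {A : ValuationSubring Qb} {p : ℕ}

/-- **base canonicity** (subgroup form). -/
theorem inZero_of_cofixed {r : ℕ} (hr : r.Prime) (hΔ0 : W.Δ ≠ 0) (hΔ : (r : ℤ) ∣ W.Δ)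
    (hc4 : ¬ (r : ℤ) ∣ W.c₄) (hA : A.LiesOverPrime r) (hp : p.Prime) (hp5 : 5 ≤ p) (hrp : r ≠ p)
    (hbig : 2 * r + 1 < p ∨ (r ≠ 2 ∧ 2 * r - 1 < p))
    (K : AddSubgroup ((W.map (Int.castRingHom ℚ))⁄Qb).Point) (hKcard : Nat.card ↥K = p)
    (hcof : ∀ σ : GQ, ∀ x : ((W.map (Int.castRingHom ℚ))⁄Qb).Point, p • x = 0 → σ • x - x ∈ K) :
    ∀ x ∈ K, W.InZeroComponentAt A x := by
  classical
  haveI : NeZero p := ⟨hp.ne_zero⟩
  haveI : Fact p.Prime := ⟨hp⟩
  obtain ⟨T⟩ := nonempty_torsParam_of_mult_gen hr W hΔ0 hΔ hc4 A hA p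
    (by simpa using coprime_pow_six hp hp5 1)
  haveI : Finite ↥K := Nat.finite_of_card_ne_zero (by rw [hKcard]; exact hp.ne_zero)
  intro x₀ hx₀
  by_contra hnz
  -- `K ∩ Can = 0`
  have hinter : ∀ y ∈ K, y ∈ T.can → y = 0 := by
    intro y hyK hyC
    by_contra hy0
    have hpy : p • y = 0 := ((T.mem_can_iff y).1 hyC).1
    have hord : addOrderOf y = p := addOrderOf_eq_prime hpy hy0
    have hle : AddSubgroup.zmultiples y ≤ K := AddSubgroup.zmultiples_le.2 hyK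
    have heq : AddSubgroup.zmultiples y = K :=
      AddSubgroup.eq_of_le_of_card_ge hle (by rw [Nat.card_zmultiples, hord, hKcard])
    have hx₀' : x₀ ∈ AddSubgroup.zmultiples y := by rw [heq]; exact hx₀
    have hx₀C : x₀ ∈ T.can := (AddSubgroup.zmultiples_le.2 hyC) hx₀'
    exact hnz ((T.mem_can_iff x₀).1 hx₀C).2
  -- a Frobenius fixes the generator of `Can`
  obtain ⟨σ, hσ⟩ := Fermat.Agent.ES.FROB.FrobFacts12.exists_isFrobeniusAt_of r hr A hA
  have hgC : T.gen ∈ T.can := by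
    rw [T.can_eq_zmultiples]; exact AddSubgroup.mem_zmultiples _
  obtain ⟨hpg, hzg⟩ := (T.mem_can_iff T.gen).1 hgC
  have hg0 : T.gen ≠ 0 := by
    intro h0
    have := T.addOrderOf_gen
    rw [h0, addOrderOf_zero] at this
    exact hp.one_lt.ne this
  have hfix : σ • T.gen = T.gen := by
    have h1 : σ • T.gen - T.gen ∈ K := hcof σ _ hpg
    have h2 : σ • T.gen - T.gen ∈ T.can :=
      T.can.sub_mem (T.smul_mem_can hσ.mem_decompositionSubgroup hgC) hgC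
    exact sub_eq_zero.1 (hinter _ h1 h2)
  rcases hbig with hb | ⟨hr2, hb⟩
  · have := prime_le_of_frobFixed_crude hr hA hp hrp W hσ T.gen hfix hg0 hpg hzg
    omega
  · have := prime_le_of_frobFixed hr hA hp hrp hr2 W hΔ hc4 hσ T.gen hfix hg0 hpg hzg
    omega

/-- **base canonicity** for `D : CofData G_ℚ E(ℚ̄) p 1 c`. -/
theorem inZero_of_cofData {r : ℕ} {c : GQ → ℕ} (hr : r.Prime) (hΔ0 : W.Δ ≠ 0) (hΔ : (r : ℤ) ∣ W.Δ)
    (hc4 : ¬ (r : ℤ) ∣ W.c₄) (hA : A.LiesOverPrime r) (hp : p.Prime) (hp5 : 5 ≤ p) (hrp : r ≠ p)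
    (hbig : 2 * r + 1 < p ∨ (r ≠ 2 ∧ 2 * r - 1 < p))
    (D : CofData GQ ((W.map (Int.castRingHom ℚ))⁄Qb).Point p 1 c) :
    ∀ x ∈ D.K, W.InZeroComponentAt A x := by
  refine inZero_of_cofixed hr hΔ0 hΔ hc4 hA hp hp5 hrp hbig D.K ?_ ?_
  · rw [D.card_K, pow_one]
  · intro σ x hx
    exact D.cofix σ x (by rw [pow_one]; exact hx)

end Fermat.Agent.MS.CAN.Base7
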